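import Fermat.Agent.ErdosMurtyGRH.Split
import Fermat.Agent.ArtinHooley.Ranges

/-!
# The index of an integer modulo almost all primes

On the Riemann hypothesis for the fields `ℚ(ζ_q, a ^ (1/q))`: the primes whose index
`(p - 1) / ord_p a` has a prime factor `q > z` are `O (N / (z log N)) + o (N / log N)` by Hooley's
three ranges, and those whose index has only prime factors `≤ z` but exceeds `T ^ z` have
`q ^ e ∣ p - 1` for one of `z` prime powers `> T`, so are `O (z N / (T log N))`.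
-/

set_option autoImplicit false
set_option linter.style.haveILetI false

noncomputable section

open Finset Filter
open FA.ArtinHooley (RootCond rootCond_iff logInt tendsto_logInt smallOrderSet
  card_smallOrderSet_le card_middle_le sum_inv_mul_pred_le)
open scoped Classical Topology

namespace FA.ErdosMurty

/-- `(p - 1) / ord_p a`. -/
def primeIndex (a : ℤ) (p : ℕ) : ℕ := (p - 1) / orderOf (a : ZMod p)

theorem primeIndex_spec {a : ℤ} {p : ℕ} (hp : p.Prime) (hpa : ¬ (p : ℤ) ∣ a) :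
    orderOf (a : ZMod p) * primeIndex a p = p - 1 := by
  haveI : Fact p.Prime := ⟨hp⟩
  exact Nat.mul_div_cancel' (orderOf_dvd_of_pow_eq_one (ZMod.pow_card_sub_one_eq_one
    fun e => hpa ((ZMod.intCast_zmod_eq_zero_iff_dvd a p).1 e)))

/-- A divisor of the index gives the residue condition. -/
theorem rootCond_of_dvd_index {a : ℤ} {p q : ℕ} (hp : p.Prime) (hpa : ¬ (p : ℤ) ∣ a)
    (hq : 0 < q) (h : q ∣ primeIndex a p) : RootCond a q p := by
  haveI : Fact p.Prime := ⟨hp⟩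
  obtain ⟨r, hr⟩ := h
  have hspec := primeIndex_spec hp hpa
  rw [hr] at hspec
  have e : p - 1 = q * (orderOf (a : ZMod p) * r) := by rw [← hspec]; ring
  refine (rootCond_iff q).2 ⟨⟨_, e⟩, ?_⟩
  rw [e, Nat.mul_div_cancel_left _ hq, pow_mul, pow_orderOf_eq_one, one_pow]

/-- The primes with a large prime in the index. -/
def bigSet (a : ℤ) (z N : ℕ) : Finset ℕ :=
  (Icc 1 N).filter fun p : ℕ => p.Prime ∧ ¬ (p : ℤ) ∣ a ∧
    ∃ q : ℕ, q.Prime ∧ z < q ∧ q ∣ primeIndex a p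

theorem bigSet_subset {a : ℤ} {z u v y N : ℕ} (ha : 2 ≤ a.natAbs)
    (hy : ∀ p q : ℕ, p ≤ N → v < q → (p - 1) / q ≤ y) :
    bigSet a z N ⊆ (((Ioc z u).filter Nat.Prime).biUnion fun q =>
        (Icc 1 N).filter fun p : ℕ => p.Prime ∧ RootCond a q p) ∪
      (((Ioc u v).filter Nat.Prime).biUnion fun q =>
        (Icc 1 N).filter fun p : ℕ => p.Prime ∧ p ≡ 1 [MOD q]) ∪ smallOrderSet a y := fun p hp => by
  obtain ⟨hpN, hp, hpa, q, hq, hzq, hdvd⟩ := mem_filter.1 hp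
  have hc := rootCond_of_dvd_index hp hpa hq.pos hdvd
  rcases le_or_gt q u with h | h
  · exact mem_union_left _ (mem_union_left _ (mem_biUnion.2
      ⟨q, mem_filter.2 ⟨mem_Ioc.2 ⟨hzq, h⟩, hq⟩, mem_filter.2 ⟨hpN, hp, hc⟩⟩))
  rcases le_or_gt q v with h' | h'
  · exact mem_union_left _ (mem_union_right _ (mem_biUnion.2
      ⟨q, mem_filter.2 ⟨mem_Ioc.2 ⟨h, h'⟩, hq⟩,
        mem_filter.2 ⟨hpN, hp, ((Nat.modEq_iff_dvd' hp.one_le).2 hc.1).symm⟩⟩))
  have hm : 0 < (p - 1) / q := Nat.div_pos (Nat.le_of_dvd (by have := hp.two_le; omega) hc.1) hq.pos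
  refine mem_union_right _ (mem_biUnion.2 ⟨(p - 1) / q, mem_Icc.2 ⟨hm, hy p q (mem_Icc.1 hpN).2 h'⟩,
    Nat.mem_primeFactors.2 ⟨hp, Int.natCast_dvd.1 hc.2, fun h0 => ?_⟩⟩)
  rw [Int.natAbs_eq_zero, sub_eq_zero] at h0
  have h1 := congrArg Int.natAbs h0
  rw [Int.natAbs_pow, Int.natAbs_one, Nat.pow_eq_one] at h1
  omega

/-- **A large prime in the index is rare.** -/
theorem eventually_bigSet_le {a : ℤ} (ha : 2 ≤ a.natAbs) (hRH : PrimeKummerRH a) {z : ℕ}
    (hz : a.natAbs ≤ z) : ∀ᶠ N : ℕ in atTop,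
      ((bigSet a z N).card : ℝ) ≤ 3 / (z : ℝ) * ((N : ℝ) / Real.log N) := by
  obtain ⟨A, hA, hroot⟩ := exists_rootCount_le
  have hz1 : 1 ≤ z := by omega
  have hz0 : (0 : ℝ) < z := Nat.cast_pos.2 hz1
  obtain ⟨la, hla⟩ : ∃ la, la = Real.log |(a : ℝ)| := ⟨_, rfl⟩
  have hla0 : 0 ≤ la := by
    rw [hla, ← Int.cast_abs]
    exact Real.log_nonneg (by exact_mod_cast Int.one_le_abs (Int.natAbs_ne_zero.1 (by omega)))
  obtain ⟨c, hc⟩ : ∃ c, c = 1 / ((z : ℝ) * (4 * A + 1700 * 16 + 2 * (la + 1))) := ⟨_, rfl⟩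
  have hc0 : 0 < c := by rw [hc]; positivity
  have hlog : Tendsto (fun N : ℕ => Real.log N) atTop atTop :=
    Real.tendsto_log_atTop.comp tendsto_natCast_atTop_atTop
  have hloglog : ∀ K : ℝ, ∀ δ : ℝ, 0 < δ → ∀ᶠ N : ℕ in atTop,
      K + Real.log (Real.log N) ≤ δ * Real.log N := fun K δ hδ => by
    filter_upwards [hlog.eventually (Real.isLittleO_log_id_atTop.def (half_pos hδ)),
      hlog.eventually_ge_atTop (max 1 (2 * |K| / δ))] with N h1 h2
    simp only [Real.norm_eq_abs, id_eq] at h1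
    obtain ⟨h3, h4⟩ := max_le_iff.1 h2
    rw [abs_of_nonneg (show (0 : ℝ) ≤ Real.log N by linarith)] at h1
    rw [div_le_iff₀ hδ] at h4
    linarith [le_abs_self (Real.log (Real.log (N : ℝ))), le_abs_self K]
  filter_upwards [hlog.eventually_ge_atTop (max 64 la), hloglog 1 (1 / 64) (by norm_num),
    hloglog 1 c hc0, (tendsto_logInt.comp tendsto_natCast_atTop_atTop).eventually
      (Iic_mem_nhds (show (1 : ℝ) < 2 by norm_num)), eventually_ge_atTop 2]
    with N hL hw hwc hli hN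
  obtain ⟨hL64, hLla⟩ := max_le_iff.1 hL
  obtain ⟨L, hLdef⟩ : ∃ L, L = Real.log N := ⟨_, rfl⟩
  obtain ⟨w, hwdef⟩ : ∃ w, w = Real.log L := ⟨_, rfl⟩
  rw [← hLdef] at hL64 hLla ⊢
  rw [← hLdef, ← hwdef] at hw hwc
  change logInt N * Real.log N / N ≤ 2 at hli
  have hN0 : (0 : ℝ) < N := Nat.cast_pos.2 (by omega)
  have hL0 : 0 < L := by linarith
  have hw0 : 0 ≤ w := hwdef ▸ Real.log_nonneg (by linarith)
  have hl2 : Real.log 2 ≤ 1 := by linarith [Real.log_two_lt_d9]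
  obtain ⟨s, hs⟩ : ∃ s, s = √(N : ℝ) := ⟨_, rfl⟩
  have hs0 : 0 < s := hs ▸ Real.sqrt_pos.2 hN0
  have hss : s * s = N := hs ▸ Real.mul_self_sqrt hN0.le
  have hls : Real.log s = L / 2 := by rw [hs, Real.log_sqrt hN0.le, hLdef]
  have hsN : s ≤ N := hss ▸ le_mul_of_one_le_left hs0.le (by
    rw [hs]
    exact Real.one_le_sqrt.2 (Nat.one_le_cast.2 (by omega)))
  obtain ⟨u, hu⟩ : ∃ u, u = ⌊s / L ^ 3⌋₊ := ⟨_, rfl⟩
  obtain ⟨v, hv⟩ : ∃ v, v = ⌈s * L⌉₊ := ⟨_, rfl⟩
  obtain ⟨y, hy⟩ : ∃ y, y = ⌊s / L⌋₊ := ⟨_, rfl⟩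
  have h4 : 4 ≤ s / L ^ 3 := by
    rw [le_div_iff₀ (by positivity), ← Real.log_le_log_iff (by positivity) hs0, hls,
      Real.log_mul (by norm_num) (by positivity), Real.log_pow, ← hwdef,
      show (4 : ℝ) = 2 ^ 2 by norm_num, Real.log_pow]
    push_cast
    linarith
  have hus : (u : ℝ) ≤ s / L ^ 3 := hu ▸ Nat.floor_le (by positivity)
  have hu2 : s / L ^ 3 / 2 ≤ u := by
    have h1 := Nat.lt_floor_add_one (s / L ^ 3)
    rw [← hu] at h1
    linarith
  have hu2' : 2 ≤ u := hu ▸ Nat.le_floor (by push_cast; linarith)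
  have hv1 : s * L ≤ v := hv ▸ Nat.le_ceil _
  have hsL1 : 1 ≤ s * L := by
    rw [hs]
    exact one_le_mul_of_one_le_of_one_le (Real.one_le_sqrt.2 (Nat.one_le_cast.2 (by omega)))
      (by linarith)
  have hv2 : (v : ℝ) ≤ 2 * (s * L) := by
    have := Nat.ceil_lt_add_one (show 0 ≤ s * L by positivity)
    rw [← hv] at this
    linarith
  have hL3 : (1 : ℝ) ≤ L ^ 3 := one_le_pow₀ (by linarith)
  have hus' : (u : ℝ) ≤ s := hus.trans (div_le_self hs0.le hL3)
  have huv : u ≤ v := by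
    exact_mod_cast (hus'.trans ((le_mul_of_one_le_right hs0.le (by linarith)).trans hv1) :
      (u : ℝ) ≤ v)
  have hlu : L / 2 - 3 * w - 1 ≤ Real.log u := by
    refine le_trans ?_ (Real.log_le_log (by positivity) hu2)
    rw [Real.log_div (by positivity) two_ne_zero, Real.log_div hs0.ne' (by positivity),
      Real.log_pow, hls, ← hwdef]
    push_cast
    linarith
  have hlv : Real.log v ≤ L / 2 + w + 1 := by
    refine (Real.log_le_log (by linarith) hv2).trans ?_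
    rw [Real.log_mul two_ne_zero (by positivity), Real.log_mul hs0.ne' hL0.ne', hls, ← hwdef]
    linarith
  have hyq : ∀ p q : ℕ, p ≤ N → v < q → (p - 1) / q ≤ y := fun p q hp hq => by
    rw [hy]
    refine Nat.le_floor ?_
    refine Nat.cast_div_le.trans ?_
    refine (div_le_div₀ hN0.le (Nat.cast_le.2 ((Nat.sub_le p 1).trans hp)) (by positivity)
      (hv1.trans (Nat.cast_le.2 hq.le))).trans (le_of_eq ?_)
    rw [← hss]
    field_simp
  have hNL : 0 ≤ (N : ℝ) / L ^ 2 := by positivity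
  have hsum := (Nat.cast_le (α := ℝ)).2 ((card_le_card
    (bigSet_subset (z := z) (u := u) ha hyq)).trans
    ((card_union_le _ _).trans (Nat.add_le_add_right (card_union_le _ _) _)))
  push_cast at hsum
  have hli2 : logInt N ≤ 2 * ((N : ℝ) / L) := by
    rw [← mul_div_assoc, le_div_iff₀ hL0, hLdef]
    rwa [div_le_iff₀ hN0] at hli
  have hM1 : ((((Ioc z u).filter Nat.Prime).biUnion fun q =>
      (Icc 1 N).filter fun p : ℕ => p.Prime ∧ RootCond a q p).card : ℝ) ≤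
      2 / (z : ℝ) * ((N : ℝ) / L) + 4 * A * ((N : ℝ) / L ^ 2) := by
    refine (Nat.cast_le.2 card_biUnion_le).trans ?_
    push_cast
    refine (sum_le_sum fun q hq => ?_).trans ((sum_add_distrib
      (f := fun q : ℕ => logInt N * (1 / ((q : ℝ) * (q - 1))))
      (g := fun _ => A * (s * (4 * L)))).le.trans (add_le_add ?_ ?_))
    · rw [mem_filter, mem_Ioc] at hq
      refine (hroot a ha hRH q hq.2 (by omega) N hN).trans ?_
      rw [mul_one_div, ← hs, ← hla, ← hLdef]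
      have hlq : Real.log q ≤ L := hLdef ▸ Real.log_le_log (by exact_mod_cast hq.2.pos)
        ((Nat.cast_le.2 hq.1.2).trans (hus'.trans hsN))
      gcongr
      linarith
    · rw [← mul_sum]
      refine (mul_le_mul_of_nonneg_left (sum_inv_mul_pred_le hz1 u)
        (FA.ArtinHooley.logInt_nonneg (by exact_mod_cast hN))).trans ?_
      rw [mul_one_div, show 2 / (z : ℝ) * ((N : ℝ) / L) = 2 * ((N : ℝ) / L) / z by ring]
      exact div_le_div_of_nonneg_right hli2 hz0.le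
    · rw [sum_const, nsmul_eq_mul]
      refine (mul_le_mul_of_nonneg_right ((Nat.cast_le.2 ((card_filter_le _ _).trans
        (by rw [Nat.card_Ioc]; omega : (Ioc z u).card ≤ u))).trans hus) (by positivity)).trans ?_
      rw [show s / L ^ 3 * (A * (s * (4 * L))) = 4 * A * (s * s / L ^ 2) by field_simp, hss]
  have hM2 : ((((Ioc u v).filter Nat.Prime).biUnion fun q =>
      (Icc 1 N).filter fun p : ℕ => p.Prime ∧ p ≡ 1 [MOD q]).card : ℝ) ≤
      1700 * 16 * ((N : ℝ) / L ^ 2 * (1 + w)) := by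
    refine (card_middle_le hu2' huv hN (by rw [← hLdef]; linarith)).trans ?_
    rw [← hLdef]
    refine (mul_le_mul_of_nonneg_left (div_le_div₀ (by linarith)
      (show Real.log v - Real.log u + 12 ≤ 14 * (1 + w) by linarith) (by positivity)
      (show L / 4 ≤ Real.log u by linarith)) (by positivity)).trans ?_
    rw [show 144 * (N : ℝ) / L * (14 * (1 + w) / (L / 4)) = 8064 * (N / L ^ 2 * (1 + w)) by
      field_simp; ring]
    exact mul_le_mul_of_nonneg_right (by norm_num) (by positivity)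
  have hM3 : ((smallOrderSet a y).card : ℝ) ≤ 2 * (la + 1) * ((N : ℝ) / L ^ 2) := by
    refine (card_smallOrderSet_le ha y).trans ?_
    rw [← hla, show (N : ℝ) / L ^ 2 = (s / L) ^ 2 by rw [div_pow, sq s, hss]]
    have : (y : ℝ) ^ 2 ≤ (s / L) ^ 2 :=
      pow_le_pow_left₀ (Nat.cast_nonneg y) (hy ▸ Nat.floor_le (by positivity)) 2
    nlinarith
  obtain ⟨D, hD⟩ : ∃ D, D = 4 * A + 1700 * 16 + 2 * (la + 1) := ⟨_, rfl⟩
  have hD0 : 0 < D := by rw [hD]; positivity
  have hsmall : D * ((N : ℝ) / L ^ 2 * (1 + w)) ≤ 1 / (z : ℝ) * ((N : ℝ) / L) := by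
    refine (mul_le_mul_of_nonneg_left (mul_le_mul_of_nonneg_left hwc hNL) hD0.le).trans
      (le_of_eq ?_)
    rw [hc, ← hD]
    field_simp
  have e1 := le_mul_of_one_le_right (show 0 ≤ 4 * A * ((N : ℝ) / L ^ 2) by positivity)
    (show 1 ≤ 1 + w by linarith)
  have e3 := le_mul_of_one_le_right (show 0 ≤ 2 * (la + 1) * ((N : ℝ) / L ^ 2) by positivity)
    (show 1 ≤ 1 + w by linarith)
  rw [hD] at hsmall
  rw [show 3 / (z : ℝ) = 2 / z + 1 / z by ring, add_mul]
  linarith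

/-- **A large smooth index needs a large prime power.** -/
theorem exists_primePow_dvd {i z T : ℕ} (hi : T ^ z < i) (hT : 1 ≤ T)
    (hsmooth : ∀ q : ℕ, q.Prime → q ∣ i → q ≤ z) :
    ∃ q : ℕ, q.Prime ∧ q ≤ z ∧ q ^ (Nat.log q T + 1) ∣ i := by
  by_contra h
  push Not at h
  have hi0 : i ≠ 0 := by omega
  refine hi.not_ge ?_
  conv_lhs => rw [← Nat.prod_factorization_pow_eq_self hi0]
  rw [Finsupp.prod, Nat.support_factorization]
  refine (Finset.prod_le_pow_card _ _ T fun q hq => ?_).trans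
    (Nat.pow_le_pow_right hT ((card_le_card (t := Icc 1 z) fun q hq => ?_).trans (by simp)))
  · obtain ⟨hqp, hqi, -⟩ := Nat.mem_primeFactors.1 hq
    have h1 := h q hqp (hsmooth q hqp hqi)
    rw [hqp.pow_dvd_iff_le_factorization hi0, not_le] at h1
    exact (Nat.pow_le_pow_right hqp.pos (Nat.lt_succ_iff.1 h1)).trans
      (Nat.pow_log_le_self q (by omega))
  · obtain ⟨hqp, hqi, -⟩ := Nat.mem_primeFactors.1 hq
    exact mem_Icc.2 ⟨hqp.one_le, hsmooth q hqp hqi⟩

/-- **The index is bounded outside a set of small density.** -/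
theorem exists_index_bound {a : ℤ} (ha : 2 ≤ a.natAbs) (hRH : PrimeKummerRH a) {ε : ℝ}
    (hε : 0 < ε) : ∃ f : ℕ, ∀ᶠ N : ℕ in atTop,
      ((((Icc 1 N).filter fun p : ℕ =>
        p.Prime ∧ ¬ (p : ℤ) ∣ a ∧ f < primeIndex a p).card : ℕ) : ℝ) ≤
        ε * ((N : ℝ) / Real.log N) := by
  obtain ⟨z, hz, hzε⟩ : ∃ z : ℕ, a.natAbs ≤ z ∧ 6 / ε ≤ z :=
    ⟨max a.natAbs ⌈6 / ε⌉₊, le_max_left _ _,
      (Nat.le_ceil _).trans (Nat.cast_le.2 (le_max_right _ _))⟩
  obtain ⟨T, hT, hTε⟩ : ∃ T : ℕ, 1 ≤ T ∧ 192 * (z : ℝ) / ε ≤ T :=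
    ⟨max 1 ⌈192 * (z : ℝ) / ε⌉₊, le_max_left _ _,
      (Nat.le_ceil _).trans (Nat.cast_le.2 (le_max_right _ _))⟩
  have hz0 : (0 : ℝ) < z := Nat.cast_pos.2 (by omega)
  have hT0 : (0 : ℝ) < T := Nat.cast_pos.2 hT
  refine ⟨T ^ z, ?_⟩
  obtain ⟨M, hM⟩ : ∃ M : ℕ, M = (z * T + 2) ^ 2 := ⟨_, rfl⟩
  filter_upwards [eventually_bigSet_le ha hRH hz, eventually_ge_atTop (M ^ 2 + 2)] with N hbig hN
  have hlN : 0 < Real.log N := Real.log_pos (by exact_mod_cast (show 1 < N by omega))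
  have hsub : ((Icc 1 N).filter fun p : ℕ => p.Prime ∧ ¬ (p : ℤ) ∣ a ∧ T ^ z < primeIndex a p) ⊆
      bigSet a z N ∪ ((Icc 1 z).filter Nat.Prime).biUnion fun q =>
        (Icc 1 N).filter fun p : ℕ => p.Prime ∧ p ≡ 1 [MOD q ^ (Nat.log q T + 1)] := fun p hp => by
    obtain ⟨hpN, hp, hpa, hidx⟩ := mem_filter.1 hp
    by_cases hb : ∃ q : ℕ, q.Prime ∧ z < q ∧ q ∣ primeIndex a p
    · exact mem_union_left _ (mem_filter.2 ⟨hpN, hp, hpa, hb⟩)
    push Not at hb
    obtain ⟨q, hq, hqz, hdvd⟩ := exists_primePow_dvd hidx hT fun q hq hqi => by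
      by_contra hlt
      exact hb q hq (not_le.1 hlt) hqi
    refine mem_union_right _ (mem_biUnion.2 ⟨q, mem_filter.2 ⟨mem_Icc.2 ⟨hq.one_le, hqz⟩, hq⟩,
      mem_filter.2 ⟨hpN, hp, ((Nat.modEq_iff_dvd' hp.one_le).2 (hdvd.trans ?_)).symm⟩⟩)
    exact ⟨_, ((mul_comm _ _).trans (primeIndex_spec hp hpa)).symm⟩
  have hq : ∀ q ∈ (Icc 1 z).filter Nat.Prime,
      ((((Icc 1 N).filter fun p : ℕ => p.Prime ∧ p ≡ 1 [MOD q ^ (Nat.log q T + 1)]).card : ℕ) : ℝ) ≤
        96 / (T : ℝ) * ((N : ℝ) / Real.log N) := fun q hq => by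
    obtain ⟨hqz, hqp⟩ := mem_filter.1 hq
    rw [mem_Icc] at hqz
    obtain ⟨m, hm⟩ : ∃ m, m = q ^ (Nat.log q T + 1) := ⟨_, rfl⟩
    rw [← hm]
    have hTm : T < m := hm ▸ Nat.lt_pow_succ_log_self hqp.one_lt T
    have hmM : m ≤ M := by
      rw [hm, hM, pow_succ]
      calc q ^ Nat.log q T * q ≤ T * z :=
            Nat.mul_le_mul (Nat.pow_log_le_self q (by omega)) hqz.2
        _ ≤ z * T + 2 := by rw [mul_comm]; omega
        _ ≤ _ := Nat.le_self_pow two_ne_zero _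
    have hmN : m ^ 2 < N := by
      have := Nat.pow_le_pow_left hmM 2
      omega
    refine (FA.PrimesMinusOne.brunTitchmarsh (a := 1) (by omega)
      ((Nat.le_self_pow two_ne_zero m).trans_lt hmN)).trans ?_
    have hm0 : (0 : ℝ) < m := Nat.cast_pos.2 (by omega)
    have htot : (T : ℝ) / 2 ≤ (m.totient : ℝ) := by
      have e : (m.totient : ℝ) = (m : ℝ) * (1 - 1 / (q : ℝ)) := by
        rw [hm, Nat.totient_prime_pow_succ hqp, Nat.cast_mul, Nat.cast_pow,
          Nat.cast_sub hqp.one_le, Nat.cast_one, Nat.cast_pow, pow_succ]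
        have : (q : ℝ) ≠ 0 := Nat.cast_ne_zero.2 hqp.ne_zero
        field_simp
      have h2 : (1 : ℝ) / q ≤ 1 / 2 :=
        one_div_le_one_div_of_le two_pos (Nat.ofNat_le_cast.2 hqp.two_le)
      have hTm' : (T : ℝ) ≤ m := Nat.cast_le.2 hTm.le
      rw [e]
      nlinarith
    have hlog : Real.log N / 2 ≤ Real.log ((N : ℝ) / m) := by
      rw [Real.log_div (Nat.cast_ne_zero.2 (show N ≠ 0 by omega)) hm0.ne']
      have := Real.log_le_log (by positivity) (show (m : ℝ) ^ 2 ≤ N by exact_mod_cast hmN.le)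
      rw [Real.log_pow] at this
      push_cast at this
      linarith
    refine (div_le_div_of_nonneg_left (by positivity) (by positivity)
      (mul_le_mul htot hlog (by linarith) (Nat.cast_nonneg _))).trans (le_of_eq ?_)
    field_simp
    ring
  have hsum : ((((Icc 1 z).filter Nat.Prime).biUnion fun q =>
      (Icc 1 N).filter fun p : ℕ => p.Prime ∧ p ≡ 1 [MOD q ^ (Nat.log q T + 1)]).card : ℝ) ≤
      ε / 2 * ((N : ℝ) / Real.log N) := by
    refine (Nat.cast_le.2 card_biUnion_le).trans ?_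
    push_cast
    refine ((sum_le_sum hq).trans (le_of_eq (sum_const _))).trans ?_
    rw [nsmul_eq_mul, ← mul_assoc]
    refine mul_le_mul_of_nonneg_right ?_ (by positivity)
    refine (mul_le_mul_of_nonneg_right (Nat.cast_le.2 ((card_filter_le _ _).trans (by simp) :
      ((Icc 1 z).filter Nat.Prime).card ≤ z)) (by positivity)).trans ?_
    rw [div_le_iff₀ hε] at hTε
    rw [← mul_div_assoc, div_le_iff₀ hT0]
    linarith
  have h3 := (Nat.cast_le (α := ℝ)).2 ((card_le_card hsub).trans (card_union_le _ _))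
  push_cast at h3
  have h4 : 3 / (z : ℝ) ≤ ε / 2 := by
    rw [div_le_iff₀ hε] at hzε
    rw [div_le_iff₀ hz0]
    linarith
  have h5 := hbig.trans (mul_le_mul_of_nonneg_right h4 (by positivity))
  linarith

end FA.ErdosMurty

end
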