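import Fermat.Agent.ArtinAllBases.Count
import Fermat.Agent.SharpChebotarev.Psi

/-!
# The primes at which an integer is a `q`-th power residue

For a prime `q > |a| ≥ 2` the integer `a` is no `q`-th power, so on the Riemann hypothesis for
`ℚ(ζ_q, a ^ (1/q))` the primes `p ≤ N`, `p ≡ 1 (mod q)`, with `a` a `q`-th power residue are at
most `li N / (q (q - 1)) + O (√N (log q + log |a| + log N))`.
-/

set_option autoImplicit false
set_option linter.style.haveILetI false

noncomputable section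

open NumberField IsDedekindDomain Module Finset Polynomial
open FA.ArtinHooley (FieldRH RootCond condCount logInt)
open FA.ArtinAll (MixedField exists_mixed_gens fixClass fixClass_facts abs_countIn_sub_le)
open scoped Classical

namespace FA.ErdosMurty

variable {a : ℤ}

/-- No large prime power equals `|a|`. -/
theorem not_rat_pow (ha : 2 ≤ a.natAbs) {q : ℕ} (hq : q.Prime) (haq : a.natAbs < q) (c : ℚ) :
    c ^ q ≠ (a : ℚ) := fun h => by
  have hden := congrArg Rat.den h
  rw [Rat.den_pow, Rat.den_intCast, Nat.pow_eq_one] at hden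
  have hnum := congrArg (fun r : ℚ => r.num.natAbs) h
  simp only [Rat.num_pow, Rat.num_intCast, Int.natAbs_pow] at hnum
  rcases Nat.lt_or_ge c.num.natAbs 2 with h2 | h2
  · interval_cases hc : c.num.natAbs
    · rw [zero_pow hq.ne_zero] at hnum
      omega
    · rw [one_pow] at hnum
      omega
  · have h3 := Nat.pow_le_pow_left h2 q
    have h4 : q < 2 ^ q := Nat.lt_two_pow_self
    omega

/-- The hypothesis: the Riemann hypothesis for the fields `ℚ(ζ_q, a ^ (1/q))`, `q` prime. -/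
def PrimeKummerRH (a : ℤ) : Prop := ∀ q : ℕ, q.Prime → FieldRH (MixedField a q q)

/-- **The count at a prime.** -/
theorem exists_rootCount_le : ∃ A : ℝ, 0 ≤ A ∧ ∀ a : ℤ, 2 ≤ a.natAbs → PrimeKummerRH a →
    ∀ q : ℕ, q.Prime → a.natAbs < q → ∀ N : ℕ, 2 ≤ N →
      ((((Icc 1 N).filter fun p => p.Prime ∧ RootCond a q p).card : ℕ) : ℝ) ≤
        logInt N / ((q : ℝ) * (q - 1)) +
          A * (√N * (1 + Real.log q + Real.log |(a : ℝ)| + Real.log N)) := by
  obtain ⟨A, hA, hcount⟩ := FA.SharpCheb.exists_countF_sharp.{0, 0}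
  refine ⟨3 * A + 4, by linarith, fun a ha hRH q hq haq N hN => ?_⟩
  haveI : NeZero q := ⟨hq.ne_zero⟩
  have ha0 : a ≠ 0 := Int.natAbs_ne_zero.1 (by omega)
  have hq2 : q ≠ 2 := by omega
  have hqq : q ∣ q := dvd_rfl
  obtain ⟨ζ, α, hζ, hα, htop⟩ := exists_mixed_gens (L := MixedField a q q) ha0 hqq
  obtain ⟨F, hF⟩ : ∃ F : IntermediateField ℚ (MixedField a q q),
      F = IntermediateField.adjoin ℚ {ζ} := ⟨_, rfl⟩
  haveI : IsCyclotomicExtension {q} ℚ F :=
    hF ▸ hζ.intermediateField_adjoin_isCyclotomicExtension ℚ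
  have hpow : ∀ r ∈ q.primeFactors, ∀ y : F, y ^ r ≠ (a : F) := fun r hr y => by
    rw [hq.primeFactors, Finset.mem_singleton] at hr
    subst hr
    exact FA.ArtinHooley.not_pow_of_odd (k := r) ha0 hq hq2 (not_rat_pow ha hq haq) y
  obtain ⟨hdeg, hdisc, -⟩ := FA.ArtinHooley.finrank_and_discr_of_gens ha0 hq.squarefree dvd_rfl
    hζ hα htop (hF ▸ hpow)
  obtain ⟨hone, hconj⟩ :=
    fixClass_facts ha0 dvd_rfl hζ hα htop hdeg (Nat.coprime_one_left q) (Nat.ModEq.refl 1)
  have hN2 : (2 : ℝ) ≤ N := by exact_mod_cast hN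
  have h1 := (abs_le.1 (hcount (hRH q hq) (fixClass ζ α 1) hconj N hN2)).2
  have h2 := (abs_le.1 (abs_countIn_sub_le ha0 dvd_rfl hζ hα (Nat.ModEq.refl 1) N)).1
  have he : condCount a (fun p => p ≡ 1 [MOD q]) q N =
      ((Icc 1 N).filter fun p => p.Prime ∧ RootCond a q p).card := by
    rw [condCount]
    refine congrArg Finset.card ?_
    ext p
    simp only [Finset.mem_filter]
    refine and_congr_right fun _ => and_congr_right fun hp => and_iff_left_of_imp fun hr => ?_
    exact ((Nat.modEq_iff_dvd' hp.one_le).2 hr.1).symm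
  rw [he] at h2
  obtain ⟨n, hn⟩ : ∃ n : ℝ, n = ((q * q.totient : ℕ) : ℝ) := ⟨_, rfl⟩
  have hq1 : (2 : ℝ) ≤ q := Nat.ofNat_le_cast.2 hq.two_le
  have hnq : n = (q : ℝ) * (q - 1) := by
    rw [hn, Nat.totient_prime hq, Nat.cast_mul, Nat.cast_sub hq.one_le, Nat.cast_one]
  have hn1 : 1 ≤ n := by rw [hnq]; nlinarith
  have hs : FA.ChebError.share (fixClass ζ α 1) = 1 / n := by
    rw [FA.ChebError.share, hone, IsGalois.card_aut_eq_finrank, hdeg, hn, Nat.cast_one]
  rw [hs, hdeg, ← hn] at h1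
  rw [← hn] at hdisc
  obtain ⟨B, hB⟩ : ∃ B, B = 1 + Real.log q + Real.log |(a : ℝ)| + Real.log N := ⟨_, rfl⟩
  have hlq := Real.log_natCast_nonneg q
  have hlN := Real.log_natCast_nonneg N
  have hla : 0 ≤ Real.log |(a : ℝ)| := by
    rw [← Int.cast_abs]
    exact Real.log_nonneg (by exact_mod_cast Int.one_le_abs ha0)
  have hsN : 1 ≤ √(N : ℝ) := Real.one_le_sqrt.2 (by linarith)
  have h3 : A * (1 / n) * (√(N : ℝ) * (FA.DedekindZeroCount.discLog (MixedField a q q) +
      n * Real.log N)) ≤ 3 * A * (√(N : ℝ) * B) := by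
    refine (mul_le_mul_of_nonneg_left (mul_le_mul_of_nonneg_left (show _ ≤ n * (3 * B) from ?_)
      (Real.sqrt_nonneg _)) (by positivity)).trans (le_of_eq (by field_simp))
    rw [FA.DedekindZeroCount.discLog, hB]
    nlinarith
  have h4 : 2 * (Real.log q + Real.log |(a : ℝ)|) ≤ 4 * (√(N : ℝ) * B) := by
    have := le_mul_of_one_le_left (show 0 ≤ B by rw [hB]; linarith) hsN
    rw [hB] at this ⊢
    linarith
  rw [← hnq, ← hB]
  simp only [logInt] at h1 ⊢
  linarith [show 1 / n * ∫ t in (2 : ℝ)..N, 1 / Real.log t =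
    (∫ t in (2 : ℝ)..N, 1 / Real.log t) / n by ring]

end FA.ErdosMurty

end
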